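import Mathlib
import Fermat.Prelude.Def_EllipticCurve_FrobeniusTrace

set_option autoImplicit false

namespace Fermat.Agent.S54

open Polynomial

/-- Step A: existence of a valuation subring lying over a prime. -/
theorem exists_valuationSubring_liesOverPrime {K : Type*} [Field K] [CharZero K]
    (ℓ : ℕ) (hℓ : ℓ.Prime) : ∃ A : ValuationSubring K, A.LiesOverPrime ℓ := by
  have hmem : (ℓ : K) ∈ (⊥ : Subring K) := natCast_mem _ ℓ
  have hne : Ideal.span {(⟨(ℓ : K), hmem⟩ : (⊥ : Subring K))} ≠ ⊤ := by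
    rw [Ne, Ideal.span_singleton_eq_top]
    intro hu
    obtain ⟨⟨y, hy⟩, hxy⟩ := isUnit_iff_exists_inv.mp hu
    obtain ⟨n, rfl⟩ := Subring.mem_bot.mp hy
    have h1 : ((ℓ : K) * (n : K)) = 1 := congrArg Subtype.val hxy
    have h2 : ((ℓ : ℤ) * n) = 1 := by exact_mod_cast h1
    have h3 : (ℓ : ℤ) ∣ 1 := Dvd.intro _ h2
    have h4 : ℓ ∣ 1 := by exact_mod_cast h3
    exact hℓ.one_lt.ne' (Nat.dvd_one.mp h4)
  obtain ⟨B, -, hB⟩ := Ideal.image_subset_nonunits_valuationSubring _ hne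
  exact ⟨B, hB ⟨⟨(ℓ : K), hmem⟩, Ideal.subset_span rfl, rfl⟩⟩


theorem isIntegral_int_of_forall_mem_valuationSubring {K : Type*} [Field K] (z : K)
    (h : ∀ V : ValuationSubring K, z ∈ V) : IsIntegral ℤ z := by
  by_contra hz
  have hz' : z ∉ (integralClosure ℤ K).toSubring := hz
  obtain ⟨V, -, hV⟩ := Subring.exists_le_valuationSubring_of_isIntegrallyClosedIn hz'
  exact hV (h V)

theorem aeval_int_mem_valuationSubring {K : Type*} [Field K] (V : ValuationSubring K) {x : K}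
    (hx : x ∈ V) (q : ℤ[X]) : aeval x q ∈ V := by
  rw [aeval_eq_sum_range]
  exact sum_mem fun i _ => zsmul_mem (pow_mem hx i) _

theorem aeval_mul_inv_pow_mem {K : Type*} [Field K] (V : ValuationSubring K) {x y : K}
    (hxy : x * y = 1) (hy : y ∈ V) (r : ℤ[X]) (s : ℕ) (hr : r.degree < s) :
    aeval x r * y ^ s ∈ V ∧ aeval x r * y ^ s * x ∈ V := by
  rcases eq_or_ne r 0 with rfl | hr0
  · simp [zero_mem]
  have hnat : r.natDegree < s := (natDegree_lt_iff_degree_lt hr0).mpr hr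
  rw [aeval_eq_sum_range' hnat, Finset.sum_mul, Finset.sum_mul]
  have key : ∀ i ∈ Finset.range s, x ^ i * y ^ s = y ^ (s - i) ∧
      x ^ i * y ^ s * x = y ^ (s - i - 1) := by
    intro i hi
    have hi' : i < s := Finset.mem_range.mp hi
    have h1 : x ^ i * y ^ s = y ^ (s - i) := by
      have : y ^ s = y ^ i * y ^ (s - i) := by rw [← pow_add]; congr 1; omega
      rw [this, ← mul_assoc, ← mul_pow, hxy, one_pow, one_mul]
    refine ⟨h1, ?_⟩
    have : y ^ (s - i) = y ^ (s - i - 1) * y := by rw [← pow_succ]; congr 1; omega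
    rw [h1, this, mul_assoc, mul_comm y x, hxy, mul_one]
  constructor
  · refine sum_mem fun i hi => ?_
    rw [smul_mul_assoc, (key i hi).1]
    exact zsmul_mem (pow_mem hy _) _
  · refine sum_mem fun i hi => ?_
    rw [smul_mul_assoc, smul_mul_assoc, (key i hi).2]
    exact zsmul_mem (pow_mem hy _) _



theorem charP_residueField_of_liesOverPrime {K : Type*} [Field K]
    (A : ValuationSubring K) (ℓ : ℕ) (hℓ : ℓ.Prime) (hA : A.LiesOverPrime ℓ) :
    CharP (IsLocalRing.ResidueField A) ℓ := by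
  rw [CharP.charP_iff_prime_eq_zero hℓ]
  obtain ⟨hmem, hmax⟩ := (ValuationSubring.mem_nonunits_iff_exists_mem_maximalIdeal).mp hA
  rw [← map_natCast (IsLocalRing.residue A), IsLocalRing.residue_eq_zero_iff]
  exact hmax

theorem exists_integral_fraction {K : Type*} [Field K] [CharZero K]
    (A : ValuationSubring K) (ℓ : ℕ) (hℓ : ℓ.Prime) (hA : A.LiesOverPrime ℓ)
    (x : K) (hxA : x ∈ A) (hx : IsAlgebraic ℤ x) :
    ∃ b c : K, IsIntegral ℤ b ∧ IsIntegral ℤ c ∧ b ∉ A.nonunits ∧ b * x = c := by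
  classical
  have : Fact ℓ.Prime := ⟨hℓ⟩
  obtain ⟨p₀, hp₀, hp₀x⟩ := hx
  have hpx : aeval x p₀.primPart = 0 := aeval_primPart_eq_zero hp₀ hp₀x
  have hprim : p₀.primPart.IsPrimitive := p₀.isPrimitive_primPart
  generalize p₀.primPart = p at hpx hprim
  let f : ℤ →+* ZMod ℓ := Int.castRingHom (ZMod ℓ)
  have hpbar : p.map f ≠ 0 := by
    intro h0
    have hdvd : C (ℓ : ℤ) ∣ p := by
      rw [C_dvd_iff_dvd_coeff]
      intro i
      have : f (p.coeff i) = 0 := by rw [← coeff_map, h0, coeff_zero]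
      exact (ZMod.intCast_zmod_eq_zero_iff_dvd _ _).mp this
    have hu : IsUnit (ℓ : ℤ) := hprim _ hdvd
    have : ℓ = 1 := by
      have := Int.isUnit_iff_natAbs_eq.mp hu
      simpa using this
    exact hℓ.one_lt.ne' this
  set s := (p.map f).natDegree with hs
  have hmonic : (X ^ s : ℤ[X]).Monic := monic_X_pow s
  have hdecomp : p %ₘ X ^ s + X ^ s * (p /ₘ X ^ s) = p := modByMonic_add_div p (X ^ s)
  have hrdeg : (p %ₘ X ^ s).degree < s := by
    simpa using degree_modByMonic_lt p hmonic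
  set q := p /ₘ X ^ s with hq
  set r := p %ₘ X ^ s with hr
  have heq : aeval x r + x ^ s * aeval x q = 0 := by
    rw [← hpx, ← hdecomp]; simp
  have hint : ∀ V : ValuationSubring K, aeval x q ∈ V ∧ aeval x q * x ∈ V := by
    intro V
    rcases V.mem_or_inv_mem x with hxV | hxV
    · exact ⟨aeval_int_mem_valuationSubring V hxV q,
        mul_mem (aeval_int_mem_valuationSubring V hxV q) hxV⟩
    · rcases eq_or_ne x 0 with rfl | hx0
      · exact ⟨aeval_int_mem_valuationSubring V (zero_mem _) q, by simp [zero_mem]⟩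
      have hxy : x * x⁻¹ = 1 := mul_inv_cancel₀ hx0
      obtain ⟨h1, h2⟩ := aeval_mul_inv_pow_mem V hxy hxV r s hrdeg
      have hb : aeval x q = -(aeval x r * x⁻¹ ^ s) := by
        have : aeval x r = -(x ^ s * aeval x q) := eq_neg_of_add_eq_zero_left heq
        rw [this, neg_mul, neg_neg, mul_comm (x ^ s), mul_assoc, ← mul_pow, hxy, one_pow, mul_one]
      rw [hb]
      refine ⟨neg_mem h1, ?_⟩
      rw [neg_mul]
      exact neg_mem h2
  refine ⟨aeval x q, aeval x q * x, isIntegral_int_of_forall_mem_valuationSubring _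
    fun V => (hint V).1, isIntegral_int_of_forall_mem_valuationSubring _ fun V => (hint V).2,
    ?_, rfl⟩
  -- the denominator is a unit of `A`
  have : CharP (IsLocalRing.ResidueField A) ℓ := charP_residueField_of_liesOverPrime A ℓ hℓ hA
  intro hnon
  obtain ⟨hmem, hmax⟩ := (ValuationSubring.mem_nonunits_iff_exists_mem_maximalIdeal).mp hnon
  have hcoe : aeval x q = ((aeval (⟨x, hxA⟩ : A) q : A) : K) := by
    have := aeval_algebraMap_apply K (⟨x, hxA⟩ : A) q
    exact this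
  have hres : IsLocalRing.residue A (aeval (⟨x, hxA⟩ : A) q) = 0 := by
    rw [IsLocalRing.residue_eq_zero_iff]
    convert hmax using 1
    exact Subtype.ext hcoe.symm
  let g : ZMod ℓ →+* IsLocalRing.ResidueField A := ZMod.castHom (dvd_refl ℓ) _
  have hcomp : (Int.castRingHom (IsLocalRing.ResidueField A)) = g.comp f :=
    RingHom.ext_int _ _
  have hqbar : q.map f = p.map f /ₘ X ^ s := by
    rw [hq, map_divByMonic f hmonic, Polynomial.map_pow, map_X]
  have hmonic' : (X ^ s : (ZMod ℓ)[X]).Monic := monic_X_pow s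
  have hnd : (q.map f).natDegree = 0 := by
    rw [hqbar, natDegree_divByMonic _ hmonic', natDegree_X_pow, ← hs, Nat.sub_self]
  have hne : q.map f ≠ 0 := by
    rw [hqbar, Ne, divByMonic_eq_zero_iff hmonic', not_lt, degree_X_pow,
      degree_eq_natDegree hpbar]
  obtain ⟨u, hu⟩ : ∃ u : ZMod ℓ, q.map f = C u := ⟨_, eq_C_of_natDegree_eq_zero hnd⟩
  have hu0 : u ≠ 0 := by
    rintro rfl
    exact hne (by rw [hu, C_0])
  have : IsLocalRing.residue A (aeval (⟨x, hxA⟩ : A) q) = g u := by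
    have hc : ((IsLocalRing.residue A).comp (algebraMap ℤ A)) = g.comp f := RingHom.ext_int _ _
    rw [aeval_def, hom_eval₂, hc, ← eval₂_map, hu, eval₂_C]
  rw [this] at hres
  exact hu0 ((map_eq_zero g).mp hres)


section GaloisAction

variable (K : Type*) [Field K] [Algebra ℚ K]

/-- The Galois action on the ring of algebraic integers of `K`. -/
@[reducible] noncomputable def intClosureAction :
    MulSemiringAction (K ≃ₐ[ℚ] K) (integralClosure ℤ K) where
  smul g b := ⟨g b.1, map_isIntegral_int g b.2⟩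
  one_smul _ := Subtype.ext rfl
  mul_smul _ _ _ := Subtype.ext rfl
  smul_zero g := Subtype.ext (map_zero g)
  smul_add g _ _ := Subtype.ext (map_add g _ _)
  smul_one g := Subtype.ext (map_one g)
  smul_mul g _ _ := Subtype.ext (map_mul g _ _)

attribute [local instance] intClosureAction

theorem coe_intClosure_smul (g : K ≃ₐ[ℚ] K) (b : integralClosure ℤ K) :
    ((g • b : integralClosure ℤ K) : K) = g (b : K) := rfl

example : SMulCommClass (K ≃ₐ[ℚ] K) ℤ (integralClosure ℤ K) := inferInstance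

theorem isInvariant_intClosure [IsGalois ℚ K] :
    Algebra.IsInvariant ℤ (integralClosure ℤ K) (K ≃ₐ[ℚ] K) := by
  constructor
  intro b hb
  have h1 : (b : K) ∈ (⊥ : IntermediateField ℚ K) :=
    (InfiniteGalois.mem_bot_iff_fixed (b : K)).mpr fun g => congrArg Subtype.val (hb g)
  obtain ⟨r, hr⟩ := IntermediateField.mem_bot.mp h1
  have h2 : IsIntegral ℤ r := by
    have h3 : IsIntegral ℤ (b : K) := b.2
    rw [← hr] at h3
    exact (isIntegral_algebraMap_iff (algebraMap ℚ K).injective).mp h3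
  obtain ⟨n, hn⟩ := IsIntegrallyClosed.isIntegral_iff.mp h2
  refine ⟨n, Subtype.ext ?_⟩
  rw [← hr, ← hn]
  simp

theorem continuousSMul_intClosure [Algebra.IsIntegral ℚ K]
    [TopologicalSpace (integralClosure ℤ K)] [DiscreteTopology (integralClosure ℤ K)] :
    ContinuousSMul (K ≃ₐ[ℚ] K) (integralClosure ℤ K) := by
  rw [continuousSMul_iff_stabilizer_isOpen]
  intro b
  convert stabilizer_isOpen_of_isIntegral (K := ℚ) (L := K) (b : K) using 1
  ext g
  simp only [SetLike.mem_coe, MulAction.mem_stabilizer_iff, Subtype.ext_iff, coe_intClosure_smul]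
  rfl





open scoped Pointwise in
theorem exists_frobenius_at_prime [IsAlgClosure ℚ K] (ℓ : ℕ) (hℓ : ℓ.Prime)
    (Q : Ideal (integralClosure ℤ K)) [Q.IsPrime] (hQ : (ℓ : integralClosure ℤ K) ∈ Q) :
    ∃ σ : K ≃ₐ[ℚ] K, (∀ b : integralClosure ℤ K, σ • b ∈ Q ↔ b ∈ Q) ∧
      ∀ b : integralClosure ℤ K, σ • b - b ^ ℓ ∈ Q := by
  classical
  have : IsAlgClosed K := IsAlgClosure.isAlgClosed ℚ
  have : Algebra.IsAlgebraic ℚ K := IsAlgClosure.isAlgebraic
  letI : TopologicalSpace (integralClosure ℤ K) := ⊥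
  have : DiscreteTopology (integralClosure ℤ K) := ⟨rfl⟩
  have := continuousSMul_intClosure K
  have := isInvariant_intClosure K
  let P : Ideal ℤ := Q.under ℤ
  have : Q.LiesOver P := ⟨rfl⟩
  have : IsDomain (integralClosure ℤ K ⧸ Q) := Ideal.Quotient.isDomain Q
  have : CharP (integralClosure ℤ K ⧸ Q) ℓ := by
    rw [CharP.charP_iff_prime_eq_zero hℓ, ← map_natCast (Ideal.Quotient.mk Q),
      Ideal.Quotient.eq_zero_iff_mem]
    exact hQ
  have : ExpChar (integralClosure ℤ K ⧸ Q) ℓ := ExpChar.prime hℓ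
  have : PerfectRing (integralClosure ℤ K ⧸ Q) ℓ := by
    refine PerfectRing.ofSurjective _ _ fun y => ?_
    obtain ⟨b, rfl⟩ := Ideal.Quotient.mk_surjective y
    obtain ⟨z, hz⟩ := IsAlgClosed.exists_pow_nat_eq (b : K) hℓ.pos
    have hzint : IsIntegral ℤ z := IsIntegral.of_pow hℓ.pos (hz ▸ b.2)
    refine ⟨Ideal.Quotient.mk Q ⟨z, hzint⟩, ?_⟩
    rw [frobenius_def, ← map_pow]
    congr 1
    exact Subtype.ext hz
  let l : (integralClosure ℤ K ⧸ Q) ≃ₐ[ℤ ⧸ P] (integralClosure ℤ K ⧸ Q) :=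
    { frobeniusEquiv (integralClosure ℤ K ⧸ Q) ℓ with
      commutes' := fun r => by
        obtain ⟨n, rfl⟩ := Ideal.Quotient.mk_surjective r
        have : algebraMap (ℤ ⧸ P) (integralClosure ℤ K ⧸ Q) (Ideal.Quotient.mk P n) =
            ((n : ℤ) : integralClosure ℤ K ⧸ Q) := by
          simp
        rw [this]
        exact map_intCast (frobenius (integralClosure ℤ K ⧸ Q) ℓ) n }
  obtain ⟨σ, hσ⟩ := Ideal.Quotient.stabilizerHom_surjective_of_profinite
    (G := K ≃ₐ[ℚ] K) P Q l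
  refine ⟨σ.1, fun b => ?_, fun b => ?_⟩
  · have h := σ.2
    rw [MulAction.mem_stabilizer_iff] at h
    have h2 : σ.1 • b ∈ σ.1 • Q ↔ b ∈ Q := Ideal.smul_mem_pointwise_smul_iff
    rwa [h] at h2
  · rw [← Ideal.Quotient.eq]
    have := DFunLike.congr_fun hσ (Ideal.Quotient.mk Q b)
    rw [Ideal.Quotient.stabilizerHom_apply] at this
    rw [map_pow]
    exact this

end GaloisAction



section Assemble

variable (K : Type*) [Field K] [Algebra ℚ K]

attribute [local instance] intClosureAction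

theorem integral_mem_valuationSubring {K : Type*} [Field K] (A : ValuationSubring K) {b : K}
    (hb : IsIntegral ℤ b) : b ∈ A := by
  obtain ⟨y, hy⟩ := IsIntegrallyClosed.isIntegral_iff.mp (hb.tower_top (A := A))
  rw [← hy]
  exact y.2

theorem inv_mem_of_not_mem_nonunits {K : Type*} [Field K] (A : ValuationSubring K) {y : K}
    (hy : y ∈ A) (hy' : y ∉ A.nonunits) : y⁻¹ ∈ A := by
  rw [← A.valuation_le_one_iff] at hy ⊢
  rw [A.mem_nonunits_iff, not_lt] at hy'
  rw [map_inv₀, le_antisymm hy hy', inv_one]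

theorem exists_frobenius_integral [IsAlgClosure ℚ K] (ℓ : ℕ) (hℓ : ℓ.Prime)
    (A : ValuationSubring K) (hA : A.LiesOverPrime ℓ) :
    ∃ σ : K ≃ₐ[ℚ] K, (∀ b : K, IsIntegral ℤ b → (σ b ∈ A.nonunits ↔ b ∈ A.nonunits)) ∧
      ∀ b : K, IsIntegral ℤ b → σ b - b ^ ℓ ∈ A.nonunits := by
  let ι : integralClosure ℤ K →+* A :=
    { toFun := fun b => ⟨b.1, integral_mem_valuationSubring A b.2⟩
      map_one' := rfl
      map_mul' := fun _ _ => rfl
      map_zero' := rfl
      map_add' := fun _ _ => rfl }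
  let Q : Ideal (integralClosure ℤ K) := (IsLocalRing.maximalIdeal A).comap ι
  have hmemQ : ∀ b : integralClosure ℤ K, b ∈ Q ↔ (b : K) ∈ A.nonunits := by
    intro b
    rw [ValuationSubring.mem_nonunits_iff_exists_mem_maximalIdeal]
    exact ⟨fun h => ⟨_, h⟩, fun ⟨_, h⟩ => h⟩
  have hQ : (ℓ : integralClosure ℤ K) ∈ Q := by
    rw [hmemQ]
    exact hA
  obtain ⟨σ, h1, h2⟩ := exists_frobenius_at_prime K ℓ hℓ Q hQ
  refine ⟨σ, fun b hb => ?_, fun b hb => ?_⟩
  · have := h1 ⟨b, hb⟩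
    rw [hmemQ, hmemQ] at this
    exact this
  · have := h2 ⟨b, hb⟩
    rw [hmemQ] at this
    exact this

theorem map_mem_of_stabilizes [CharZero K] [Algebra.IsAlgebraic ℚ K] (ℓ : ℕ) (hℓ : ℓ.Prime)
    (A : ValuationSubring K) (hA : A.LiesOverPrime ℓ) (τ : K ≃ₐ[ℚ] K)
    (hτ : ∀ b : K, IsIntegral ℤ b → (τ b ∈ A.nonunits ↔ b ∈ A.nonunits)) {x : K} (hx : x ∈ A) :
    τ x ∈ A := by
  have hxalg : IsAlgebraic ℤ x :=
    (IsFractionRing.isAlgebraic_iff ℤ ℚ K).mpr (Algebra.IsAlgebraic.isAlgebraic x)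
  obtain ⟨b, c, hb, hc, hbA, hbc⟩ := exists_integral_fraction A ℓ hℓ hA x hx hxalg
  have hτb : τ b ∉ A.nonunits := fun h => hbA ((hτ b hb).mp h)
  have hτbA : τ b ∈ A := integral_mem_valuationSubring A (map_isIntegral_int τ hb)
  have hτcA : τ c ∈ A := integral_mem_valuationSubring A (map_isIntegral_int τ hc)
  have hτb0 : τ b ≠ 0 := fun h0 => hτb (by rw [h0]; exact A.nonunits.zero_mem)
  have : τ x = τ c * (τ b)⁻¹ := by
    rw [← hbc, map_mul]
    field_simp
  rw [this]
  exact mul_mem hτcA (inv_mem_of_not_mem_nonunits A hτbA hτb)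

theorem residue_eq_of_sub_mem_nonunits {K : Type*} [Field K] (A : ValuationSubring K) {u v : A}
    (h : (u : K) - (v : K) ∈ A.nonunits) : IsLocalRing.residue A u = IsLocalRing.residue A v := by
  rw [← sub_eq_zero, ← map_sub, IsLocalRing.residue_eq_zero_iff]
  obtain ⟨_, hmax⟩ := (ValuationSubring.mem_nonunits_iff_exists_mem_maximalIdeal).mp h
  exact hmax

open scoped Pointwise in
theorem exists_isFrobeniusAt_of_liesOverPrime [IsAlgClosure ℚ K] (ℓ : ℕ) (hℓ : ℓ.Prime)
    (A : ValuationSubring K) (hA : A.LiesOverPrime ℓ) :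
    ∃ σ : K ≃ₐ[ℚ] K, A.IsFrobeniusAt σ ℓ := by
  have : Algebra.IsAlgebraic ℚ K := IsAlgClosure.isAlgebraic
  have : CharZero K := charZero_of_injective_algebraMap (algebraMap ℚ K).injective
  obtain ⟨σ, h1, h2⟩ := exists_frobenius_integral K ℓ hℓ A hA
  have h1' : ∀ b : K, IsIntegral ℤ b → (σ⁻¹ b ∈ A.nonunits ↔ b ∈ A.nonunits) := by
    intro b hb
    have h := h1 (σ⁻¹ b) (map_isIntegral_int σ⁻¹ hb)
    rw [← h]
    have : σ (σ⁻¹ b) = b := AlgEquiv.apply_symm_apply σ b
    rw [this]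
  have hσ : σ ∈ A.decompositionSubgroup ℚ := by
    rw [MulAction.mem_stabilizer_iff]
    ext x
    rw [ValuationSubring.mem_pointwise_smul_iff_inv_smul_mem]
    constructor
    · intro hx
      have h := map_mem_of_stabilizes K ℓ hℓ A hA σ h1 hx
      have : σ (σ⁻¹ • x) = x := AlgEquiv.apply_symm_apply σ x
      rwa [this] at h
    · intro hx
      exact map_mem_of_stabilizes K ℓ hℓ A hA σ⁻¹ h1' hx
  refine ⟨σ, hσ, fun x => ?_⟩
  obtain ⟨a, rfl⟩ := IsLocalRing.residue_surjective x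
  have hxalg : IsAlgebraic ℤ (a : K) :=
    (IsFractionRing.isAlgebraic_iff ℤ ℚ K).mpr (Algebra.IsAlgebraic.isAlgebraic (a : K))
  obtain ⟨b, c, hb, hc, hbA, hbc⟩ := exists_integral_fraction A ℓ hℓ hA a a.2 hxalg
  let b' : A := ⟨b, integral_mem_valuationSubring A hb⟩
  let c' : A := ⟨c, integral_mem_valuationSubring A hc⟩
  let s : A.decompositionSubgroup ℚ := ⟨σ, hσ⟩
  have hbc' : b' * a = c' := Subtype.ext hbc
  have hres : ∀ (d : A), IsIntegral ℤ (d : K) →
      IsLocalRing.residue A (s • d) = IsLocalRing.residue A d ^ ℓ := by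
    intro d hd
    rw [← map_pow]
    exact residue_eq_of_sub_mem_nonunits A (h2 d hd)
  have hb0 : IsLocalRing.residue A b' ≠ 0 := by
    rw [Ne, IsLocalRing.residue_eq_zero_iff]
    intro hmax
    exact hbA ((ValuationSubring.mem_nonunits_iff_exists_mem_maximalIdeal).mpr ⟨_, hmax⟩)
  have key : IsLocalRing.residue A (s • b') * IsLocalRing.residue A (s • a) =
      IsLocalRing.residue A (s • c') := by
    rw [← map_mul, ← smul_mul', hbc']
  rw [hres b' hb, hres c' hc, ← hbc', map_mul, mul_pow] at key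
  rw [← IsLocalRing.ResidueField.residue_smul]
  exact mul_left_cancel₀ (pow_ne_zero ℓ hb0) key

theorem isAlgClosure_rat_algebraicClosure : IsAlgClosure ℚ (AlgebraicClosure ℚ) :=
  letI : Algebra ℚ (AlgebraicClosure ℚ) := AlgebraicClosure.instAlgebra ℚ
  (inferInstance : IsAlgClosure ℚ (AlgebraicClosure ℚ))

/-- Existence of Frobenius elements in the absolute Galois group of `ℚ`. -/
theorem exists_isFrobeniusAt (ℓ : ℕ) (hℓ : ℓ.Prime) :
    ∃ (A : ValuationSubring (AlgebraicClosure ℚ))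
      (σ : AlgebraicClosure ℚ ≃ₐ[ℚ] AlgebraicClosure ℚ),
      A.LiesOverPrime ℓ ∧ A.IsFrobeniusAt σ ℓ := by
  have := isAlgClosure_rat_algebraicClosure
  obtain ⟨A, hA⟩ := exists_valuationSubring_liesOverPrime (K := AlgebraicClosure ℚ) ℓ hℓ
  obtain ⟨σ, hσ⟩ := exists_isFrobeniusAt_of_liesOverPrime (AlgebraicClosure ℚ) ℓ hℓ A hA
  exact ⟨A, σ, hA, hσ⟩

end Assemble

end Fermat.Agent.S54
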