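import Mathlib
import Fermat.Prelude.Def_EllipticCurve_FrobeniusTrace

/-!
Existence of Frobenius elements in the absolute Galois group of `ℚ`, in the form used by the
frozen definitions (`ValuationSubring.LiesOverPrime`, `ValuationSubring.IsFrobeniusAt`).
-/

set_option autoImplicit false

namespace Fermat.Agent.S54.FrobExists

open scoped Pointwise
open Polynomial

section ULemma

variable {K : Type*} [Field K] {B : Type*} [CommRing B] [Algebra B K]

/-- If `x` is a root of a polynomial over `B` with a coefficient outside the ideal `Q`, and `B`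
is integrally closed in `K`, then `x` or `x⁻¹` is a fraction with denominator outside `Q`. -/
theorem u_lemma (hinj : Function.Injective (algebraMap B K))
    (hcl : ∀ x : K, IsIntegral B x → ∃ b : B, algebraMap B K b = x)
    (Q : Ideal B) (x : K) :
    ∀ (n : ℕ) (p : B[X]), p.natDegree ≤ n → aeval x p = 0 → (∃ i, p.coeff i ∉ Q) →
      (∃ s b : B, s ∉ Q ∧ algebraMap B K s * x = algebraMap B K b) ∨
      (∃ s b : B, s ∉ Q ∧ algebraMap B K s * x⁻¹ = algebraMap B K b) := by
  intro n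
  induction n with
  | zero =>
    intro p hp hx hi
    exfalso
    obtain ⟨i, hi⟩ := hi
    have hpC : p = C (p.coeff 0) := Polynomial.eq_C_of_natDegree_le_zero hp
    rw [hpC, aeval_C] at hx
    have h0 : p.coeff 0 = 0 := hinj (by rw [hx, map_zero])
    rw [h0, map_zero] at hpC
    apply hi
    rw [hpC, coeff_zero]
    exact Q.zero_mem
  | succ n ih =>
    intro p hp hx hi
    by_cases hdeg : p.natDegree ≤ n
    · exact ih p hdeg hx hi
    have hdeg' : p.natDegree = n + 1 := le_antisymm hp (Nat.lt_of_not_le hdeg)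
    have hint : IsIntegral B (p.leadingCoeff • x) := isIntegral_leadingCoeff_smul p x hx
    obtain ⟨b, hb⟩ := hcl _ hint
    rw [Algebra.smul_def] at hb
    by_cases ha : p.leadingCoeff ∈ Q
    swap
    · exact Or.inl ⟨p.leadingCoeff, b, ha, hb.symm⟩
    set q : B[X] := p.eraseLead + C b * X ^ n with hq
    have hqdeg : q.natDegree ≤ n := by
      refine (natDegree_add_le _ _).trans (max_le ?_ (natDegree_C_mul_X_pow_le b n))
      have := eraseLead_natDegree_le p
      omega
    have hqx : aeval x q = 0 := by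
      have h1 : aeval x p = aeval x p.eraseLead + algebraMap B K p.leadingCoeff * x ^ (n + 1) := by
        conv_lhs => rw [← eraseLead_add_C_mul_X_pow p, hdeg']
        simp
      rw [hq, map_add, map_mul, aeval_C, map_pow, aeval_X, hb]
      rw [h1] at hx
      rw [← hx]
      ring
    by_cases hqi : ∃ i, q.coeff i ∉ Q
    · exact ih q hqdeg hqx hqi
    simp only [not_exists, not_not] at hqi
    obtain ⟨i, hi⟩ := hi
    have hile : i ≤ n + 1 := by
      by_contra hlt
      apply hi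
      rw [coeff_eq_zero_of_natDegree_lt (by omega)]
      exact Q.zero_mem
    have hine : i ≠ n + 1 := by
      rintro rfl
      apply hi
      rw [← hdeg']
      exact ha
    have hin : i = n := by
      by_contra hne
      apply hi
      have h2 := hqi i
      rw [hq, coeff_add, eraseLead_coeff_of_ne i (by omega), coeff_C_mul_X_pow,
        if_neg hne, add_zero] at h2
      exact h2
    subst hin
    have hbQ : b ∉ Q := by
      intro hbQ
      apply hi
      have h2 := hqi i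
      rw [hq, coeff_add, eraseLead_coeff_of_ne i (by omega), coeff_C_mul_X_pow,
        if_pos rfl] at h2
      have := Q.sub_mem h2 hbQ
      rwa [add_sub_cancel_right] at this
    by_cases hx0 : x = 0
    · refine Or.inl ⟨1, 0, fun h1 => hbQ ?_, by rw [hx0, mul_zero, map_zero]⟩
      have : b = b * 1 := (mul_one b).symm
      rw [this]
      exact Q.mul_mem_left b h1
    · refine Or.inr ⟨b, p.leadingCoeff, hbQ, ?_⟩
      rw [hb, mul_assoc, mul_inv_cancel₀ hx0, mul_one]

end ULemma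

section Setup

/-- The field of algebraic numbers. -/
abbrev Qb : Type := AlgebraicClosure ℚ

/-- The ring of all algebraic integers. -/
noncomputable abbrev Zb : Subalgebra ℤ Qb := integralClosure ℤ Qb

theorem isAlgClosure_Qb : IsAlgClosure ℚ Qb := AlgebraicClosure.instIsAlgClosure ℚ

attribute [local instance] isAlgClosure_Qb

/-- The Galois action on algebraic integers. -/
@[reducible] noncomputable def galAct : MulSemiringAction (Qb ≃ₐ[ℚ] Qb) Zb :=
  IsIntegralClosure.MulSemiringAction ℤ ℚ Qb Zb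

attribute [local instance] galAct

theorem coe_smul (σ : Qb ≃ₐ[ℚ] Qb) (b : Zb) : ((σ • b : Zb) : Qb) = σ (b : Qb) :=
  algebraMap_galRestrict_apply ℤ σ b

/-- The discrete topology on the algebraic integers. -/
@[reducible] def topZb : TopologicalSpace Zb := ⊥

attribute [local instance] topZb

theorem discZb : DiscreteTopology Zb := ⟨rfl⟩

attribute [local instance] discZb

theorem contSMul : ContinuousSMul (Qb ≃ₐ[ℚ] Qb) Zb := by
  refine (continuousSMul_iff_stabilizer_isOpen (M := Qb ≃ₐ[ℚ] Qb) (X := Zb)).mpr ?_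
  intro b
  have h := stabilizer_isOpen_of_isIntegral (K := ℚ) (L := Qb) (b : Qb)
  convert h using 1
  ext σ
  simp only [SetLike.mem_coe, MulAction.mem_stabilizer_iff]
  constructor
  · intro h1
    have := congrArg (fun z : Zb => (z : Qb)) h1
    simpa [coe_smul] using this
  · intro h1
    apply Subtype.ext
    rw [coe_smul]
    exact h1

attribute [local instance] contSMul

theorem isInvariant : Algebra.IsInvariant ℤ Zb (Qb ≃ₐ[ℚ] Qb) := by
  refine ⟨fun b hb => ?_⟩
  have hfix : ∀ f : Qb ≃ₐ[ℚ] Qb, f (b : Qb) = (b : Qb) := fun f => by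
    rw [← coe_smul, hb f]
  obtain ⟨r, hr⟩ := (InfiniteGalois.mem_range_algebraMap_iff_fixed (k := ℚ) (K := Qb) _).mpr hfix
  have hbint : IsIntegral ℤ (b : Qb) := b.2
  rw [← hr, isIntegral_algebraMap_iff (FaithfulSMul.algebraMap_injective ℚ Qb)] at hbint
  obtain ⟨a, rfl⟩ := IsIntegrallyClosed.algebraMap_eq_of_integral hbint
  refine ⟨a, Subtype.ext ?_⟩
  rw [← hr]
  simp

attribute [local instance] isInvariant

/-- The localisation of the algebraic integers at a prime, as a subring of `Qb`. -/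
def locSubring (Q : Ideal Zb) [hQ : Q.IsPrime] : Subring Qb where
  carrier := {x | ∃ s b : Zb, s ∉ Q ∧ algebraMap Zb Qb s * x = algebraMap Zb Qb b}
  mul_mem' := by
    rintro x y ⟨s, b, hs, h⟩ ⟨s', b', hs', h'⟩
    refine ⟨s * s', b * b', fun hmem => ?_, ?_⟩
    · rcases hQ.mem_or_mem hmem with h1 | h1
      exacts [hs h1, hs' h1]
    · rw [map_mul, map_mul, ← h, ← h']; ring
  one_mem' := ⟨1, 1, (Ideal.ne_top_iff_one Q).mp hQ.ne_top, by rw [mul_one]⟩
  add_mem' := by
    rintro x y ⟨s, b, hs, h⟩ ⟨s', b', hs', h'⟩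
    refine ⟨s * s', b * s' + b' * s, fun hmem => ?_, ?_⟩
    · rcases hQ.mem_or_mem hmem with h1 | h1
      exacts [hs h1, hs' h1]
    · rw [map_mul, map_add, map_mul, map_mul, ← h, ← h']; ring
  zero_mem' := ⟨1, 0, (Ideal.ne_top_iff_one Q).mp hQ.ne_top, by rw [mul_zero, map_zero]⟩
  neg_mem' := by
    rintro x ⟨s, b, hs, h⟩
    exact ⟨s, -b, hs, by rw [map_neg, ← h]; ring⟩

theorem zb_closed (x : Qb) (hx : IsIntegral Zb x) : ∃ b : Zb, algebraMap Zb Qb b = x :=
  ⟨⟨x, isIntegral_trans x hx⟩, rfl⟩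

theorem exists_coeff_notMem (Q : Ideal Zb) [hQ : Q.IsPrime] (x : Qb) :
    ∃ p : Zb[X], aeval x p = 0 ∧ ∃ i, p.coeff i ∉ Q := by
  have halg : IsAlgebraic ℤ x :=
    (IsFractionRing.isAlgebraic_iff ℤ ℚ Qb).mpr (Algebra.IsAlgebraic.isAlgebraic x)
  obtain ⟨p, hp0, hpx⟩ := halg
  refine ⟨p.primPart.map (algebraMap ℤ Zb), ?_, ?_⟩
  · rw [aeval_map_algebraMap]
    have h1 : aeval x p = algebraMap ℤ Qb p.content * aeval x p.primPart := by
      conv_lhs => rw [p.eq_C_content_mul_primPart]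
      rw [map_mul, aeval_C]
    rw [h1] at hpx
    rcases mul_eq_zero.mp hpx with h | h
    · exfalso
      have h2 : p.content = 0 := by simpa using h
      exact hp0 (content_eq_zero_iff.mp h2)
    · exact h
  · by_contra hall
    simp only [not_exists, not_not, coeff_map] at hall
    have hI : ∀ i, p.primPart.coeff i ∈ Q.comap (algebraMap ℤ Zb) :=
      fun i => Ideal.mem_comap.mpr (hall i)
    obtain ⟨m, hm⟩ : ∃ m, Q.comap (algebraMap ℤ Zb) = Ideal.span {m} :=
      ⟨_, (Ideal.span_singleton_generator _).symm⟩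
    have hdvd : C m ∣ p.primPart := (C_dvd_iff_dvd_coeff _ _).mpr fun i => by
      have := hI i
      rw [hm, Ideal.mem_span_singleton] at this
      exact this
    have hunit : IsUnit m := (isPrimitive_primPart p) m hdvd
    have htop : Q.comap (algebraMap ℤ Zb) = ⊤ := by
      rw [hm]
      exact Ideal.span_singleton_eq_top.mpr hunit
    have h1 : (1 : ℤ) ∈ Q.comap (algebraMap ℤ Zb) := by
      rw [htop]
      trivial
    have h2 : (1 : Zb) ∈ Q := by simpa using h1
    exact hQ.ne_top ((Ideal.eq_top_iff_one Q).mpr h2)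

/-- The localisation of the algebraic integers at a prime is a valuation subring of `Qb`. -/
noncomputable def valSub (Q : Ideal Zb) [Q.IsPrime] : ValuationSubring Qb :=
  ValuationSubring.ofSubring (locSubring Q) fun x => by
    obtain ⟨p, hpx, hi⟩ := exists_coeff_notMem Q x
    exact u_lemma (B := Zb) (K := Qb) Subtype.val_injective zb_closed Q x p.natDegree p le_rfl hpx hi

theorem mem_valSub_iff (Q : Ideal Zb) [Q.IsPrime] (x : Qb) :
    x ∈ valSub Q ↔ ∃ s b : Zb, s ∉ Q ∧ algebraMap Zb Qb s * x = algebraMap Zb Qb b :=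
  Iff.rfl

theorem mem_nonunits_valSub (Q : Ideal Zb) [hQ : Q.IsPrime] {x : Qb} {s c : Zb} (hs : s ∉ Q)
    (hc : c ∈ Q) (h : algebraMap Zb Qb s * x = algebraMap Zb Qb c) : x ∈ (valSub Q).nonunits := by
  rw [ValuationSubring.mem_nonunits_iff_or]
  by_cases hx0 : x = 0
  · exact Or.inl hx0
  refine Or.inr fun hinv => ?_
  obtain ⟨t, d, ht, hd⟩ := (mem_valSub_iff Q _).mp hinv
  have hmul : t * s = d * c := by
    apply Subtype.val_injective
    have h3 : algebraMap Zb Qb (t * s) = algebraMap Zb Qb (d * c) := by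
      rw [map_mul, map_mul, ← h, ← hd]
      field_simp
    exact h3
  have hmem : t * s ∈ Q := by
    rw [hmul]
    exact Q.mul_mem_left d hc
  rcases hQ.mem_or_mem hmem with h1 | h1
  exacts [ht h1, hs h1]

theorem apply_mem_valSub (Q : Ideal Zb) [Q.IsPrime] (τ : Qb ≃ₐ[ℚ] Qb) (hτ : τ • Q = Q) {x : Qb}
    (hx : x ∈ valSub Q) : τ x ∈ valSub Q := by
  obtain ⟨s, b, hs, h⟩ := hx
  refine ⟨τ • s, τ • b, fun hmem => hs ?_, ?_⟩
  · rw [← hτ] at hmem
    exact Ideal.smul_mem_pointwise_smul_iff.mp hmem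
  · show ((τ • s : Zb) : Qb) * τ x = ((τ • b : Zb) : Qb)
    rw [coe_smul, coe_smul, ← map_mul]
    exact congrArg τ h

/-- Frobenius elements exist at every prime. -/
theorem exists_isFrobeniusAt (ℓ : ℕ) (hℓ : ℓ.Prime) :
    ∃ A : ValuationSubring (AlgebraicClosure ℚ), A.LiesOverPrime ℓ ∧
      ∃ σ : AlgebraicClosure ℚ ≃ₐ[ℚ] AlgebraicClosure ℚ, A.IsFrobeniusAt σ ℓ := by
  have : Fact ℓ.Prime := ⟨hℓ⟩
  set P : Ideal ℤ := Ideal.span {(ℓ : ℤ)} with hP
  have hPmax : P.IsMaximal :=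
    PrincipalIdealRing.isMaximal_of_irreducible (Nat.prime_iff_prime_int.mp hℓ).irreducible
  obtain ⟨Q, hQmax, hQP⟩ := Ideal.exists_ideal_over_maximal_of_isIntegral (S := Zb) P (by
    rw [(RingHom.injective_iff_ker_eq_bot _).mp (FaithfulSMul.algebraMap_injective ℤ Zb)]
    exact bot_le)
  have : Q.IsMaximal := hQmax
  have hQprime : Q.IsPrime := hQmax.isPrime
  have : Q.LiesOver P := ⟨hQP.symm⟩
  have hℓQ : (ℓ : Zb) ∈ Q := by
    have h1 : (ℓ : ℤ) ∈ Q.comap (algebraMap ℤ Zb) := by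
      rw [hQP]
      exact Ideal.mem_span_singleton_self _
    simpa using h1
  have h1Q : (1 : Zb) ∉ Q := (Ideal.ne_top_iff_one Q).mp hQprime.ne_top
  have : CharP (Zb ⧸ Q) ℓ := by
    refine (CharP.charP_iff_prime_eq_zero hℓ).mpr ?_
    have : ((ℓ : Zb ⧸ Q)) = Ideal.Quotient.mk Q (ℓ : Zb) := by simp
    rw [this]
    exact Ideal.Quotient.eq_zero_iff_mem.mpr hℓQ
  let φ₀ : (Zb ⧸ Q) →ₐ[ℤ ⧸ P] (Zb ⧸ Q) :=
    ⟨frobenius (Zb ⧸ Q) ℓ, fun r => by
      obtain ⟨n, rfl⟩ := Ideal.Quotient.mk_surjective r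
      have h1 : algebraMap (ℤ ⧸ P) (Zb ⧸ Q) (Ideal.Quotient.mk P n) = ((n : ℤ) : Zb ⧸ Q) := by
        rw [Ideal.Quotient.algebraMap_mk_of_liesOver]
        simp
      rw [h1]
      exact map_intCast (frobenius (Zb ⧸ Q) ℓ) n⟩
  have hφ₀ : Function.Bijective φ₀ := by
    constructor
    · exact frobenius_inj (Zb ⧸ Q) ℓ
    · intro y
      obtain ⟨b, rfl⟩ := Ideal.Quotient.mk_surjective y
      obtain ⟨c, hc⟩ := IsAlgClosed.exists_pow_nat_eq (b : Qb) hℓ.pos
      have hcint : IsIntegral ℤ c := IsIntegral.of_pow hℓ.pos (hc ▸ b.2)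
      refine ⟨Ideal.Quotient.mk Q ⟨c, hcint⟩, ?_⟩
      show frobenius (Zb ⧸ Q) ℓ (Ideal.Quotient.mk Q ⟨c, hcint⟩) = Ideal.Quotient.mk Q b
      rw [frobenius_def, ← map_pow]
      congr 1
      exact Subtype.ext hc
  let φ : (Zb ⧸ Q) ≃ₐ[ℤ ⧸ P] (Zb ⧸ Q) := AlgEquiv.ofBijective φ₀ hφ₀
  obtain ⟨⟨σ, hσQ⟩, hσ⟩ :=
    Ideal.Quotient.stabilizerHom_surjective_of_profinite (G := Qb ≃ₐ[ℚ] Qb) P Q φ
  have hσQ' : σ • Q = Q := hσQ
  have hσQinv : σ⁻¹ • Q = Q := by
    conv_lhs => rw [← hσQ']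
    rw [inv_smul_smul]
  have hfrob : ∀ b : Zb, σ • b - b ^ ℓ ∈ Q := by
    intro b
    have h1 := congrArg (fun f => f (Ideal.Quotient.mk Q b)) hσ
    have h2 : Ideal.Quotient.mk Q (σ • b) = (Ideal.Quotient.mk Q b) ^ ℓ := h1
    rw [← map_pow] at h2
    exact Ideal.Quotient.eq.mp h2
  have hσA : σ ∈ (valSub Q).decompositionSubgroup ℚ := by
    rw [MulAction.mem_stabilizer_iff]
    apply ValuationSubring.ext
    intro x
    rw [ValuationSubring.mem_pointwise_smul_iff_inv_smul_mem]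
    constructor
    · intro hx
      have h1 := apply_mem_valSub Q σ hσQ' hx
      simpa using h1
    · intro hx
      exact apply_mem_valSub Q σ⁻¹ hσQinv hx
  refine ⟨valSub Q, ?_, σ, hσA, ?_⟩
  · show ((ℓ : ℕ) : Qb) ∈ (valSub Q).nonunits
    exact mem_nonunits_valSub Q (s := 1) (c := (ℓ : Zb)) h1Q hℓQ (by simp)
  · intro x
    obtain ⟨a, rfl⟩ := IsLocalRing.residue_surjective x
    rw [← IsLocalRing.ResidueField.residue_smul, ← map_pow, ← sub_eq_zero, ← map_sub,
      IsLocalRing.residue_eq_zero_iff, ← ValuationSubring.coe_mem_nonunits_iff]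
    obtain ⟨s, b, hs, h⟩ := a.2
    have hcoe : (((⟨σ, hσA⟩ : (valSub Q).decompositionSubgroup ℚ) • a - a ^ ℓ : valSub Q) : Qb) =
        σ (a : Qb) - (a : Qb) ^ ℓ := rfl
    rw [hcoe]
    refine mem_nonunits_valSub Q (s := σ • s * s ^ ℓ)
      (c := (σ • b - b ^ ℓ) * s ^ ℓ - b ^ ℓ * (σ • s - s ^ ℓ)) ?_ ?_ ?_
    · intro hmem
      rcases hQprime.mem_or_mem hmem with h1 | h1
      · rw [← hσQ'] at h1
        exact hs (Ideal.smul_mem_pointwise_smul_iff.mp h1)
      · exact hs (hQprime.mem_of_pow_mem ℓ h1)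
    · exact Q.sub_mem (Q.mul_mem_right _ (hfrob b)) (Q.mul_mem_left _ (hfrob s))
    · have h1 : σ (s : Qb) * σ (a : Qb) = σ (b : Qb) := by
        rw [← map_mul]
        exact congrArg σ h
      have h2 : (s : Qb) ^ ℓ * (a : Qb) ^ ℓ = (b : Qb) ^ ℓ := by
        rw [← mul_pow]
        exact congrArg (· ^ ℓ) h
      show ((σ • s * s ^ ℓ : Zb) : Qb) * (σ (a : Qb) - (a : Qb) ^ ℓ) =
        (((σ • b - b ^ ℓ) * s ^ ℓ - b ^ ℓ * (σ • s - s ^ ℓ) : Zb) : Qb)
      push_cast
      rw [coe_smul, coe_smul]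
      linear_combination (s : Qb) ^ ℓ * h1 - σ (s : Qb) * h2

end Setup

end Fermat.Agent.S54.FrobExists
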